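import Fermat.Agent.S16.Conj81.Trace

set_option autoImplicit false

/-!
# S16, package (U)-CONJ (helper81): `q^(1/p)`-expansion of `f ∣ S` and the `q`-expansion of the trace
-/

namespace Fermat.Agent.S16.Conj81

open scoped MatrixGroups ModularForm Manifold
open CongruenceSubgroup ModularGroup UpperHalfPlane Matrix SlashInvariantForm Function
open Matrix.SpecialLinearGroup (mapGL)

noncomputable section

variable {p : ℕ} [hp : Fact p.Prime] {k : ℤ}

omit hp in
/-- invariance under `Γ₀(p)`, in `SL(2,ℤ)` form -/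
lemma slash_of_mem {F : Type*} [FunLike F ℍ ℂ]
    [SlashInvariantFormClass F (Gamma0 p : Subgroup (GL (Fin 2) ℝ)) k] (f : F)
    {γ : SL(2, ℤ)} (hγ : γ ∈ Gamma0 p) : (f : ℍ → ℂ) ∣[k] γ = f := by
  rw [ModularForm.SL_slash]
  exact SlashInvariantForm.slash_action_eqn f _ ⟨γ, hγ, rfl⟩

variable (f : ModularForm (Gamma0 p) k)

/-- the conjugate `f ∣ S` -/
def Hs : ℍ → ℂ := (f : ℍ → ℂ) ∣[k] S

omit hp in
lemma Hs_def : Hs f = (f : ℍ → ℂ) ∣[k] S := rfl

lemma Hs_slash_T_pow : (Hs f) ∣[k] (T ^ (p : ℤ)) = Hs f := by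
  have hmem : S * T ^ (p : ℤ) * S⁻¹ ∈ Gamma0 p := (S_T_S_mem_iff p _).mpr dvd_rfl
  have h1 : (f : ℍ → ℂ) ∣[k] (S * T ^ (p : ℤ) * S⁻¹ * S) = (f : ℍ → ℂ) ∣[k] S := by
    rw [SlashAction.slash_mul, slash_of_mem f hmem]
  rw [Hs_def, ← SlashAction.slash_mul]
  rw [← h1]
  congr 1
  group

lemma Hs_vadd (z : ℍ) : Hs f (((p : ℕ) : ℝ) +ᵥ z) = Hs f z := by
  have h := congrFun (Hs_slash_T_pow f) z
  rw [slash_T_zpow_apply] at h
  simpa using h

lemma Hs_periodic : Periodic (Hs f ∘ ofComplex) ((p : ℝ) : ℂ) := by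
  intro w
  by_cases! hw : 0 < w.im
  · have hw' : 0 < (w + ((p : ℝ) : ℂ)).im := by simpa using hw
    simp only [Function.comp_apply]
    rw [ofComplex_apply_of_im_pos hw', ofComplex_apply_of_im_pos hw, ← Hs_vadd f ⟨w, hw⟩]
    congr 1
    ext
    simp [add_comm]
  · have hw' : (w + ((p : ℝ) : ℂ)).im ≤ 0 := by simpa using hw
    simp only [Function.comp_apply]
    rw [ofComplex_apply_of_im_nonpos hw', ofComplex_apply_of_im_nonpos hw]

omit hp in
lemma Hs_mdiff : MDiff (Hs f) := by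
  have h := (ModularForm.translate f (mapGL ℝ S)).holo'
  have e : (ModularForm.translate f (mapGL ℝ S) : ℍ → ℂ) = Hs f := by
    rw [ModularForm.coe_translate, Hs_def, ModularForm.SL_slash]
    rfl
  rw [← e]
  exact h

lemma Hs_bdd : IsBoundedAtImInfty (Hs f) :=
  ModularFormClass.bdd_at_infty_slash f S

/-- the coefficients of the `q^(1/p)`-expansion of `f ∣ S` -/
def bco (n : ℕ) : ℂ := (qExpansion (p : ℝ) (Hs f)).coeff n

lemma p_pos_real : (0 : ℝ) < (p : ℝ) := by exact_mod_cast hp.out.pos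

theorem hasSum_Hs (z : ℍ) :
    HasSum (fun n : ℕ => bco f n * Periodic.qParam (p : ℝ) z ^ n) (Hs f z) := by
  have := UpperHalfPlane.hasSum_qExpansion (p_pos_real (p := p)) (Hs_periodic f) (Hs_mdiff f)
    (Hs_bdd f) z
  simpa [bco, smul_eq_mul] using this

/-! ### roots of unity -/

/-- `ζ_p^j` -/
def zet (p : ℕ) (j : ℕ) : ℂ := Complex.exp (2 * Real.pi * Complex.I * j / p)

omit hp in
lemma zet_pow_p (hp0 : p ≠ 0) (j : ℕ) : zet p j ^ p = 1 := by
  unfold zet
  rw [← Complex.exp_nat_mul]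
  have : (p : ℂ) * (2 * Real.pi * Complex.I * j / p) = j * (2 * Real.pi * Complex.I) := by
    field_simp
  rw [this, Complex.exp_nat_mul, Complex.exp_two_pi_mul_I, one_pow]

omit hp in
lemma zet_eq_pow (j : ℕ) : zet p j = zet p 1 ^ j := by
  unfold zet
  rw [← Complex.exp_nat_mul]
  congr 1
  push_cast
  ring

lemma zet_one_pow_eq_one_iff (n : ℕ) : zet p 1 ^ n = 1 ↔ p ∣ n := by
  have hprim : IsPrimitiveRoot (zet p 1) p := by
    have := Complex.isPrimitiveRoot_exp p hp.out.ne_zero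
    convert this using 1
    unfold zet
    congr 1
    push_cast
    ring
  exact hprim.pow_eq_one_iff_dvd n

lemma sum_zet_pow (n : ℕ) :
    ∑ j : Fin p, zet p (j : ℕ) ^ n = if p ∣ n then (p : ℂ) else 0 := by
  have h1 : ∑ j : Fin p, zet p (j : ℕ) ^ n = ∑ j ∈ Finset.range p, (zet p 1 ^ n) ^ j := by
    rw [Fin.sum_univ_eq_sum_range (fun j => zet p j ^ n) p]
    refine Finset.sum_congr rfl fun j _ => ?_
    rw [zet_eq_pow j, ← pow_mul, ← pow_mul, mul_comm]
  rw [h1]
  split_ifs with h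
  · have : zet p 1 ^ n = 1 := (zet_one_pow_eq_one_iff n).mpr h
    simp [this]
  · have hne : zet p 1 ^ n ≠ 1 := fun h' => h ((zet_one_pow_eq_one_iff n).mp h')
    have h2 := geom_sum_mul (zet p 1 ^ n) p
    have h3 : (zet p 1 ^ n) ^ p = 1 := by
      rw [← pow_mul, mul_comm, pow_mul, zet_pow_p hp.out.ne_zero, one_pow]
    rw [h3, sub_self] at h2
    rcases mul_eq_zero.mp h2 with h4 | h4
    · exact h4
    · exact absurd (sub_eq_zero.mp h4) hne

omit hp in
lemma qParam_vadd (j : ℕ) (z : ℍ) :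
    Periodic.qParam (p : ℝ) ((((j : ℕ) : ℝ) +ᵥ z : ℍ) : ℂ) =
      Periodic.qParam (p : ℝ) z * zet p j := by
  unfold Periodic.qParam zet
  rw [← Complex.exp_add]
  congr 1
  rw [UpperHalfPlane.coe_vadd]
  push_cast
  ring

lemma qParam_p_pow (z : ℂ) : Periodic.qParam (p : ℝ) z ^ p = Periodic.qParam 1 z := by
  unfold Periodic.qParam
  rw [← Complex.exp_nat_mul]
  congr 1
  have : (p : ℂ) ≠ 0 := Nat.cast_ne_zero.mpr hp.out.ne_zero
  push_cast
  field_simp

/-! ### the `q`-expansion of the trace -/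

theorem hasSum_sum_Hs (z : ℍ) :
    HasSum (fun m : ℕ => (p : ℂ) * bco f (p * m) * Periodic.qParam 1 z ^ m)
      (∑ j : Fin p, Hs f ((((j : ℕ) : ℝ)) +ᵥ z)) := by
  have h1 : ∀ j ∈ (Finset.univ : Finset (Fin p)),
      HasSum (fun n : ℕ => bco f n * (Periodic.qParam (p : ℝ) z * zet p (j : ℕ)) ^ n)
        (Hs f ((((j : ℕ) : ℝ)) +ᵥ z)) := by
    intro j _
    have := hasSum_Hs f ((((j : ℕ) : ℝ)) +ᵥ z)
    rwa [qParam_vadd] at this
  have h2 := hasSum_sum h1
  have h3 : (fun n : ℕ => ∑ j : Fin p,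
      bco f n * (Periodic.qParam (p : ℝ) z * zet p (j : ℕ)) ^ n) =
      fun n : ℕ => if p ∣ n then (p : ℂ) * bco f n * Periodic.qParam (p : ℝ) z ^ n else 0 := by
    funext n
    have : ∀ j : Fin p, bco f n * (Periodic.qParam (p : ℝ) z * zet p (j : ℕ)) ^ n =
        bco f n * Periodic.qParam (p : ℝ) z ^ n * zet p (j : ℕ) ^ n := by
      intro j; rw [mul_pow]; ring
    rw [Finset.sum_congr rfl fun j _ => this j, ← Finset.mul_sum, sum_zet_pow]
    split_ifs <;> ring
  rw [h3] at h2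
  have hinj : Function.Injective (fun m : ℕ => p * m) := fun a b h =>
    Nat.eq_of_mul_eq_mul_left hp.out.pos h
  have hzero : ∀ n ∉ Set.range (fun m : ℕ => p * m),
      (if p ∣ n then (p : ℂ) * bco f n * Periodic.qParam (p : ℝ) z ^ n else 0) = 0 := by
    intro n hn
    rw [if_neg]
    rintro ⟨m, rfl⟩
    exact hn ⟨m, rfl⟩
  rw [← hinj.hasSum_iff hzero] at h2
  convert h2 using 1
  funext m
  simp only [Function.comp_apply]
  rw [if_pos (Dvd.intro m rfl), pow_mul, qParam_p_pow]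

theorem hasSum_trace (z : ℍ) :
    HasSum (fun m : ℕ => ((qExpansion 1 f).coeff m + (p : ℂ) * bco f (p * m)) *
      Periodic.qParam 1 z ^ m) (ModularForm.trace 𝒮ℒ f z) := by
  rw [trace_apply]
  have h1 := ModularForm.hasSum_qExpansion (h := 1) f one_pos (by simp) z
  have h2 := hasSum_sum_Hs f z
  have := h1.add h2
  convert this using 1
  · funext m
    ring
  · rfl

/-- **`q`-expansion of the trace**: `a_m(Tr f) = a_m(f) + p · b_{pm}` -/
theorem qExpansion_trace_coeff (m : ℕ) :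
    (qExpansion 1 (ModularForm.trace 𝒮ℒ f)).coeff m =
      (qExpansion 1 f).coeff m + (p : ℂ) * bco f (p * m) := by
  have h := ModularFormClass.qExpansion_coeff_unique (h := 1) one_pos (by simp)
    (f := ModularForm.trace 𝒮ℒ f)
    (c := fun m => (qExpansion 1 f).coeff m + (p : ℂ) * bco f (p * m))
    (fun τ => by simpa [smul_eq_mul] using hasSum_trace f τ) m
  exact h.symm

end

end Fermat.Agent.S16.Conj81
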