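import Fermat.Agent.S16.Conj81.Fricke
import Fermat.Agent.S16.Conj53.Expansion

set_option autoImplicit false

/-!
# S16, package (U)-CONJ (helper81): adapter `Conj81` ↔ `Conj53`

`Conj53.gS = Conj81.Hs` and `Conj53.bS = Conj81.bco` (definitionally), hence the weight-2
identity (C4) in `Conj53` vocabulary:
`Conj53.bS G m = -(1/p) * (qExpansion 1 G).coeff (p * m)`.
-/

namespace Fermat.Agent.S16.Conj81

open scoped MatrixGroups ModularForm Manifold
open CongruenceSubgroup ModularGroup UpperHalfPlane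

variable {p : ℕ} [hp : Fact p.Prime] {k : ℤ}

omit hp in
theorem gS_eq_Hs (f : ModularForm (Gamma0 p) k) : Conj53.gS f = Hs f := rfl

omit hp in
theorem bS_eq_bco (f : ModularForm (Gamma0 p) k) (m : ℕ) : Conj53.bS f m = bco f m := rfl

/-- **(C4)**, `Conj53` vocabulary: for `G` of weight 2 on `Γ₀(p)`,
`b_m(G ∣ S) = -(1/p) a_{pm}(G)`. -/
theorem bS_weight_two (G : ModularForm (Gamma0 p) 2) (m : ℕ) :
    Conj53.bS G m = -(1 / (p : ℂ)) * (qExpansion 1 G).coeff (p * m) :=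
  bco_weight_two p G m

/-- `Conj53` vocabulary: `a_n(f ∣ W_p) = p^(k-1) b_n(f ∣ S)`. -/
theorem qExpansion_fW_coeff_bS (f : ModularForm (Gamma0 p) k) (n : ℕ) :
    (qExpansion 1 (fW p f)).coeff n = (p : ℂ) ^ (k - 1) * Conj53.bS f n :=
  qExpansion_fW_coeff p f n

/-- `Conj53` vocabulary: `b_n((f ∣ W_p) ∣ S) = p⁻¹ a_n(f)`. -/
theorem bS_fW (f : ModularForm (Gamma0 p) k) (n : ℕ) :
    Conj53.bS (fW p f) n = (p : ℂ)⁻¹ * (qExpansion 1 f).coeff n :=
  bco_fW p f n

end Fermat.Agent.S16.Conj81
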