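import Mathlib

set_option autoImplicit false

/-!
# S16, package (U)-CONJ (helper81): coset representatives of `Γ₀(p)` in `SL(2,ℤ)`

`SL(2,ℤ) = Γ₀(p) ⊔ ⨆_{j<p} Γ₀(p)·S·T^j` for a prime `p`.
-/

namespace Fermat.Agent.S16.Conj81

open scoped MatrixGroups ModularForm
open CongruenceSubgroup ModularGroup UpperHalfPlane Matrix

variable (p : ℕ) [hp : Fact p.Prime]

lemma entry_rep (γ : SL(2, ℤ)) (j : ℤ) :
    ((γ * (T ^ j)⁻¹ * S⁻¹ : SL(2, ℤ)) 1 0) = γ 1 0 * j - γ 1 1 := by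
  simp [Matrix.SpecialLinearGroup.coe_mul, coe_T_zpow, Matrix.mul_apply, Fin.sum_univ_two, coe_S,
    Matrix.SpecialLinearGroup.coe_inv, Matrix.adjugate_fin_two]
  ring

lemma entry_S_T (j : ℤ) : ((S * T ^ j : SL(2, ℤ)) 1 0) = 1 := by
  simp [Matrix.SpecialLinearGroup.coe_mul, coe_T_zpow, Matrix.mul_apply, Fin.sum_univ_two, coe_S]

lemma entry_S_T_S (n : ℤ) : ((S * T ^ n * S⁻¹ : SL(2, ℤ)) 1 0) = -n := by
  simp [Matrix.SpecialLinearGroup.coe_mul, coe_T_zpow, Matrix.mul_apply, Fin.sum_univ_two, coe_S,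
    Matrix.SpecialLinearGroup.coe_inv, Matrix.adjugate_fin_two]

/-- every `γ ∉ Γ₀(p)` lies in `Γ₀(p)·S·T^j` for some `j < p` -/
theorem exists_rep (γ : SL(2, ℤ)) (hγ : γ ∉ Gamma0 p) :
    ∃ j : ℕ, j < p ∧ γ * (T ^ (j : ℤ))⁻¹ * S⁻¹ ∈ Gamma0 p := by
  rw [Gamma0_mem] at hγ
  have : NeZero p := ⟨hp.out.ne_zero⟩
  refine ⟨((((γ 1 1 : ℤ) : ZMod p)) * (((γ 1 0 : ℤ) : ZMod p))⁻¹).val, ZMod.val_lt _, ?_⟩
  rw [Gamma0_mem, entry_rep]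
  push_cast
  rw [ZMod.natCast_zmod_val, mul_comm (((γ 1 1 : ℤ) : ZMod p)), ← mul_assoc,
    mul_inv_cancel₀ hγ, one_mul, sub_self]

/-- right-coset version: `γ ∈ Γ₀(p)` or `S·T^j·γ ∈ Γ₀(p)` for some `j < p` -/
theorem exists_rep' (γ : SL(2, ℤ)) :
    γ ∈ Gamma0 p ∨ ∃ j : ℕ, j < p ∧ S * T ^ (j : ℤ) * γ ∈ Gamma0 p := by
  by_cases h : γ ∈ Gamma0 p
  · exact Or.inl h
  · right
    have h' : γ⁻¹ ∉ Gamma0 p := fun h1 => h (by simpa using (Gamma0 p).inv_mem h1)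
    obtain ⟨j, hj, hmem⟩ := exists_rep p γ⁻¹ h'
    refine ⟨j, hj, ?_⟩
    have := (Gamma0 p).inv_mem hmem
    simpa [mul_assoc] using this

lemma S_T_notMem (j : ℤ) : S * T ^ j ∉ Gamma0 p := by
  rw [Gamma0_mem, entry_S_T]
  simp only [Int.cast_one]
  have : Fact (1 < p) := ⟨hp.out.one_lt⟩
  exact one_ne_zero

lemma S_T_S_mem_iff (n : ℤ) : S * T ^ n * S⁻¹ ∈ Gamma0 p ↔ (p : ℤ) ∣ n := by
  rw [Gamma0_mem, entry_S_T_S, Int.cast_neg, neg_eq_zero, ZMod.intCast_zmod_eq_zero_iff_dvd]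

/-- distinctness of the cosets `Γ₀(p)·S·T^j`, `j < p` -/
theorem rep_injective {i j : ℕ} (hi : i < p) (hj : j < p)
    (h : (S * T ^ (i : ℤ)) * (S * T ^ (j : ℤ))⁻¹ ∈ Gamma0 p) : i = j := by
  have e : (S * T ^ (i : ℤ)) * (S * T ^ (j : ℤ))⁻¹ = S * T ^ ((i : ℤ) - j) * S⁻¹ := by
    rw [_root_.mul_inv_rev, _root_.zpow_sub]
    group
  rw [e, S_T_S_mem_iff] at h
  have h1 : ((i : ℤ) - j) = 0 := by
    apply Int.eq_zero_of_abs_lt_dvd h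
    rw [abs_lt]
    constructor <;> omega
  omega

end Fermat.Agent.S16.Conj81
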