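import Fermat.Agent.S16.Conj81.QExp

set_option autoImplicit false

/-!
# S16, package (U)-CONJ (helper81): the Fricke transform `f ∣ W_p` and the weight-2 identity
`b_m(G ∣ S) = -(1/p) a_{pm}(G)`
-/

namespace Fermat.Agent.S16.Conj81

open scoped MatrixGroups ModularForm Manifold
open CongruenceSubgroup ModularGroup UpperHalfPlane Matrix SlashInvariantForm Function
open Matrix.SpecialLinearGroup (mapGL)

noncomputable section

variable (p : ℕ) [hp : Fact p.Prime] {k : ℤ}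

/-- the Fricke matrix `[[0,-1],[p,0]]` -/
def Wp : GL (Fin 2) ℝ :=
  .mkOfDetNeZero !![0, -1; (p : ℝ), 0] (by
    have : (p : ℝ) ≠ 0 := Nat.cast_ne_zero.mpr hp.out.ne_zero
    simpa [Matrix.det_fin_two] using this)

/-- `diag(p,1)` -/
def Dp : GL (Fin 2) ℝ :=
  .mkOfDetNeZero !![(p : ℝ), 0; 0, 1] (by
    have : (p : ℝ) ≠ 0 := Nat.cast_ne_zero.mpr hp.out.ne_zero
    simpa [Matrix.det_fin_two] using this)

/-- `diag(1,p)` -/
def Ep : GL (Fin 2) ℝ :=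
  .mkOfDetNeZero !![1, 0; 0, (p : ℝ)] (by
    have : (p : ℝ) ≠ 0 := Nat.cast_ne_zero.mpr hp.out.ne_zero
    simpa [Matrix.det_fin_two] using this)

lemma Wp_val : (Wp p).val = !![0, -1; (p : ℝ), 0] := rfl
lemma Dp_val : (Dp p).val = !![(p : ℝ), 0; 0, 1] := rfl
lemma Ep_val : (Ep p).val = !![1, 0; 0, (p : ℝ)] := rfl

lemma Wp_eq : Wp p = mapGL ℝ S * Dp p := by
  ext i j
  fin_cases i <;> fin_cases j <;> simp [Wp_val, Dp_val, coe_S, Matrix.mul_apply, Fin.sum_univ_two]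

lemma Wp_mul_S : Wp p * mapGL ℝ S = mapGL ℝ (-1 : SL(2, ℤ)) * Ep p := by
  ext i j
  fin_cases i <;> fin_cases j <;> simp [Wp_val, Ep_val, coe_S, Matrix.mul_apply, Fin.sum_univ_two]


/-- the Fricke conjugate of `γ = [[a,b],[p c₀,d]]` is `[[d,-c₀],[-p b,a]]` -/
def frConj (γ : SL(2, ℤ)) (c₀ : ℤ) (h : γ 1 0 = p * c₀) : SL(2, ℤ) :=
  ⟨!![γ 1 1, -c₀; -(p : ℤ) * γ 0 1, γ 0 0], by
    have h1 := γ.det_coe
    rw [Matrix.det_fin_two] at h1
    rw [Matrix.det_fin_two_of]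
    rw [h] at h1
    linear_combination h1⟩

omit hp in
lemma frConj_00 (γ : SL(2, ℤ)) (c₀ : ℤ) (h : γ 1 0 = p * c₀) :
    (frConj p γ c₀ h) 0 0 = γ 1 1 := rfl
omit hp in
lemma frConj_01 (γ : SL(2, ℤ)) (c₀ : ℤ) (h : γ 1 0 = p * c₀) :
    (frConj p γ c₀ h) 0 1 = -c₀ := rfl
omit hp in
lemma frConj_10 (γ : SL(2, ℤ)) (c₀ : ℤ) (h : γ 1 0 = p * c₀) :
    (frConj p γ c₀ h) 1 0 = -(p : ℤ) * γ 0 1 := rfl
omit hp in
lemma frConj_11 (γ : SL(2, ℤ)) (c₀ : ℤ) (h : γ 1 0 = p * c₀) :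
    (frConj p γ c₀ h) 1 1 = γ 0 0 := rfl

omit hp in
lemma frConj_mem (γ : SL(2, ℤ)) (c₀ : ℤ) (h : γ 1 0 = p * c₀) : frConj p γ c₀ h ∈ Gamma0 p := by
  rw [Gamma0_mem, frConj_10]
  simp

lemma Wp_mul_mapGL (γ : SL(2, ℤ)) (c₀ : ℤ) (h : γ 1 0 = p * c₀) :
    Wp p * mapGL ℝ γ = mapGL ℝ (frConj p γ c₀ h) * Wp p := by
  apply Units.ext
  simp only [Units.val_mul, Matrix.SpecialLinearGroup.mapGL_coe_matrix, Wp_val]
  ext i j
  fin_cases i <;> fin_cases j <;>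
    simp [Matrix.mul_apply, Fin.sum_univ_two, h, mul_comm, frConj_00, frConj_01, frConj_10,
      frConj_11]

lemma mapGL_mul_Wp (γ : SL(2, ℤ)) (c₀ : ℤ) (h : γ 1 0 = p * c₀) :
    mapGL ℝ γ * Wp p = Wp p * mapGL ℝ (frConj p γ c₀ h) := by
  apply Units.ext
  simp only [Units.val_mul, Matrix.SpecialLinearGroup.mapGL_coe_matrix, Wp_val]
  ext i j
  fin_cases i <;> fin_cases j <;>
    simp [Matrix.mul_apply, Fin.sum_univ_two, h, mul_comm, frConj_00, frConj_01, frConj_10,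
      frConj_11]

omit hp in
lemma exists_of_mem_Gamma0 {γ : SL(2, ℤ)} (hγ : γ ∈ Gamma0 p) : ∃ c₀ : ℤ, γ 1 0 = p * c₀ := by
  rw [Gamma0_mem, ZMod.intCast_zmod_eq_zero_iff_dvd] at hγ
  exact hγ

open ConjAct Pointwise in
/-- `W_p` normalises `Γ₀(p)` -/
lemma conj_Gamma0 :
    toConjAct (Wp p)⁻¹ • (Gamma0 p : Subgroup (GL (Fin 2) ℝ)) =
      (Gamma0 p : Subgroup (GL (Fin 2) ℝ)) := by
  ext x
  rw [Subgroup.mem_pointwise_smul_iff_inv_smul_mem, ← map_inv, inv_inv, toConjAct_smul]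
  constructor
  · rintro ⟨γ, hγ, hx⟩
    obtain ⟨c₀, hc⟩ := exists_of_mem_Gamma0 p hγ
    refine ⟨frConj p γ c₀ hc, frConj_mem p γ c₀ hc, ?_⟩
    have h1 := mapGL_mul_Wp p γ c₀ hc
    rw [hx] at h1
    have h2 : Wp p * x = Wp p * mapGL ℝ (frConj p γ c₀ hc) := by
      rw [← h1]; group
    exact (mul_left_cancel h2).symm
  · rintro ⟨γ, hγ, rfl⟩
    obtain ⟨c₀, hc⟩ := exists_of_mem_Gamma0 p hγ
    refine ⟨frConj p γ c₀ hc, frConj_mem p γ c₀ hc, ?_⟩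
    rw [eq_mul_inv_iff_mul_eq]
    exact (Wp_mul_mapGL p γ c₀ hc).symm

/-- the Fricke transform `f ∣[k] W_p` as a modular form on `Γ₀(p)` -/
def fW (f : ModularForm (Gamma0 p) k) : ModularForm (Gamma0 p) k :=
  ModularForm.mcast rfl (ModularForm.translate f (Wp p)) (conj_Gamma0 p).symm

lemma coe_fW (f : ModularForm (Gamma0 p) k) : ⇑(fW p f) = (f : ℍ → ℂ) ∣[k] Wp p := rfl


/-! ### pointwise formulas -/

lemma Dp_det : (Dp p).det.val = p := by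
  simp [Dp, Matrix.det_fin_two]

lemma Ep_det : (Ep p).det.val = p := by
  simp [Ep, Matrix.det_fin_two]

lemma σ_Dp (w : ℂ) : σ (Dp p) w = w := by
  have h : (0 : ℝ) < (Dp p).det.val := by rw [Dp_det]; exact_mod_cast hp.out.pos
  unfold σ
  rw [if_pos h]
  rfl

lemma σ_Ep (w : ℂ) : σ (Ep p) w = w := by
  have h : (0 : ℝ) < (Ep p).det.val := by rw [Ep_det]; exact_mod_cast hp.out.pos
  unfold σ
  rw [if_pos h]
  rfl

lemma denom_Dp (z : ℂ) : denom (Dp p) z = 1 := by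
  simp [denom, Dp_val]

lemma denom_Ep (z : ℂ) : denom (Ep p) z = p := by
  simp [denom, Ep_val]

lemma coe_Dp_smul (z : ℍ) : ((Dp p • z : ℍ) : ℂ) = p * z := by
  have h : (0 : ℝ) < (Dp p).det.val := by rw [Dp_det]; exact_mod_cast hp.out.pos
  rw [coe_smul_of_det_pos h]
  simp [num, denom, Dp_val]

lemma coe_Ep_smul (z : ℍ) : ((Ep p • z : ℍ) : ℂ) = z / p := by
  have h : (0 : ℝ) < (Ep p).det.val := by rw [Ep_det]; exact_mod_cast hp.out.pos
  rw [coe_smul_of_det_pos h]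
  simp [num, denom, Ep_val]

/-- `(f ∣ W_p)(z) = p^(k-1) (f ∣ S)(p z)` -/
theorem fW_apply (f : ModularForm (Gamma0 p) k) (z : ℍ) :
    fW p f z = (p : ℂ) ^ (k - 1) * Hs f (Dp p • z) := by
  have h1 : (f : ℍ → ℂ) ∣[k] Wp p = (Hs f) ∣[k] Dp p := by
    rw [Wp_eq, SlashAction.slash_mul]
    rfl
  have h2 : fW p f z = ((f : ℍ → ℂ) ∣[k] Wp p) z := rfl
  rw [h2, h1, ModularForm.slash_apply, σ_Dp, denom_Dp, Dp_det]
  have : |(p : ℝ)| = p := abs_of_nonneg (Nat.cast_nonneg p)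
  rw [this]
  simp [mul_comm]

/-- `((f ∣ W_p) ∣ S)(z) = p⁻¹ f(z/p)` -/
theorem Hs_fW_apply (f : ModularForm (Gamma0 p) k) (z : ℍ) :
    Hs (fW p f) z = (p : ℂ)⁻¹ * f (Ep p • z) := by
  have hp0 : (p : ℂ) ≠ 0 := Nat.cast_ne_zero.mpr hp.out.ne_zero
  have hneg : (-1 : SL(2, ℤ)) ∈ Gamma0 p := by rw [Gamma0_mem]; simp
  have h0 : Hs (fW p f) = ((f : ℍ → ℂ) ∣[k] Wp p) ∣[k] (mapGL ℝ S) := rfl
  have h3 : (f : ℍ → ℂ) ∣[k] (mapGL ℝ (-1 : SL(2, ℤ))) = f := slash_of_mem f hneg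
  have h1 : Hs (fW p f) = (f : ℍ → ℂ) ∣[k] Ep p := by
    rw [h0, ← SlashAction.slash_mul, Wp_mul_S, SlashAction.slash_mul, h3]
  rw [h1, ModularForm.slash_apply, σ_Ep, denom_Ep, Ep_det]
  have : |(p : ℝ)| = p := abs_of_nonneg (Nat.cast_nonneg p)
  rw [this]
  have h2 : ((p : ℝ) : ℂ) ^ (k - 1) * (p : ℂ) ^ (-k) = (p : ℂ)⁻¹ := by
    push_cast
    rw [← zpow_add₀ hp0]
    have : k - 1 + -k = -1 := by ring
    rw [this, _root_.zpow_neg_one]
  rw [mul_assoc, h2, mul_comm]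


/-! ### `q`-expansions -/

lemma qParam_Dp (τ : ℍ) :
    Periodic.qParam (p : ℝ) ((Dp p • τ : ℍ) : ℂ) = Periodic.qParam 1 τ := by
  have hp0 : (p : ℂ) ≠ 0 := Nat.cast_ne_zero.mpr hp.out.ne_zero
  rw [coe_Dp_smul]
  unfold Periodic.qParam
  congr 1
  push_cast
  field_simp

lemma qParam_Ep (τ : ℍ) :
    Periodic.qParam 1 ((Ep p • τ : ℍ) : ℂ) = Periodic.qParam (p : ℝ) τ := by
  have hp0 : (p : ℂ) ≠ 0 := Nat.cast_ne_zero.mpr hp.out.ne_zero
  rw [coe_Ep_smul]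
  unfold Periodic.qParam
  congr 1
  push_cast
  field_simp

/-- `a_n(f ∣ W_p) = p^(k-1) b_n(f ∣ S)` -/
theorem qExpansion_fW_coeff (f : ModularForm (Gamma0 p) k) (n : ℕ) :
    (qExpansion 1 (fW p f)).coeff n = (p : ℂ) ^ (k - 1) * bco f n := by
  symm
  refine ModularFormClass.qExpansion_coeff_unique (h := 1) one_pos (by simp) (f := fW p f)
    (c := fun n => (p : ℂ) ^ (k - 1) * bco f n) ?_ n
  intro τ
  have h := hasSum_Hs f (Dp p • τ)
  rw [qParam_Dp] at h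
  rw [fW_apply]
  simpa [smul_eq_mul, mul_assoc] using h.mul_left ((p : ℂ) ^ (k - 1))

lemma hasSum_Hs_fW (f : ModularForm (Gamma0 p) k) (τ : ℍ) :
    HasSum (fun n : ℕ => ((p : ℂ)⁻¹ * (qExpansion 1 f).coeff n) • Periodic.qParam (p : ℝ) τ ^ n)
      (Hs (fW p f) τ) := by
  have h := ModularForm.hasSum_qExpansion (h := 1) f one_pos (by simp) (Ep p • τ)
  rw [qParam_Ep] at h
  rw [Hs_fW_apply]
  have h2 := h.mul_left ((p : ℂ)⁻¹)
  simp only [← mul_assoc] at h2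
  simpa only [smul_eq_mul] using h2


omit hp in
/-- uniqueness of `q`-expansion coefficients, for plain functions `ℍ → ℂ` -/
theorem qExpansion_coeff_unique_fun {g : ℍ → ℂ} {h : ℝ} {c : ℕ → ℂ} (hh : 0 < h)
    (han : AnalyticAt ℂ (cuspFunction h g) 0)
    (hf : ∀ τ : ℍ, HasSum (fun m ↦ c m • Periodic.qParam h τ ^ m) (g τ)) (m : ℕ) :
    c m = (qExpansion h g).coeff m := by
  have h1 := (hasFPowerSeriesOnBall_cuspFunction hh han hf).hasFPowerSeriesAt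
  have h2 : HasFPowerSeriesAt (cuspFunction h g)
      (FormalMultilinearSeries.ofScalars ℂ (fun m => (qExpansion h g).coeff m)) 0 := by
    have h3 := han.hasFPowerSeriesAt
    have h4 : (fun m => (qExpansion h g).coeff m) =
        fun n => iteratedDeriv n (cuspFunction h g) 0 / (n.factorial : ℂ) := by
      funext n
      rw [qExpansion_coeff, div_eq_mul_inv, mul_comm]
    rw [h4]
    exact h3
  have h5 := h1.eq_formalMultilinearSeries h2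
  have h6 := congr_arg (FormalMultilinearSeries.coeff · m) h5
  simpa using h6

/-- `b_n((f ∣ W_p) ∣ S) = p⁻¹ a_n(f)` -/
theorem bco_fW (f : ModularForm (Gamma0 p) k) (n : ℕ) :
    bco (fW p f) n = (p : ℂ)⁻¹ * (qExpansion 1 f).coeff n := by
  have hh : (0 : ℝ) < p := p_pos_real
  have han : AnalyticAt ℂ (cuspFunction (p : ℝ) (Hs (fW p f))) 0 :=
    UpperHalfPlane.analyticAt_cuspFunction_zero hh (Hs_periodic _) (Hs_mdiff _) (Hs_bdd _)
  have := qExpansion_coeff_unique_fun hh han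
    (c := fun n => (p : ℂ)⁻¹ * (qExpansion 1 f).coeff n) (hasSum_Hs_fW p f) n
  unfold bco
  exact this.symm

/-- **trace of the Fricke transform**: `a_m(Tr (f ∣ W_p)) = p^(k-1) b_m(f ∣ S) + a_{pm}(f)` -/
theorem qExpansion_trace_fW_coeff (f : ModularForm (Gamma0 p) k) (m : ℕ) :
    (qExpansion 1 (ModularForm.trace 𝒮ℒ (fW p f))).coeff m =
      (p : ℂ) ^ (k - 1) * bco f m + (qExpansion 1 f).coeff (p * m) := by
  have hp0 : (p : ℂ) ≠ 0 := Nat.cast_ne_zero.mpr hp.out.ne_zero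
  rw [qExpansion_trace_coeff, qExpansion_fW_coeff, bco_fW, ← mul_assoc, mul_inv_cancel₀ hp0,
    one_mul]

/-- **weight 2**: `b_m(G ∣ S) = -(1/p) a_{pm}(G)`, i.e.
`(G ∣ S)(z) = -(1/p) ∑ a_{pm}(G) q^{m/p}` -/
theorem bco_weight_two (G : ModularForm (Gamma0 p) 2) (m : ℕ) :
    bco G m = -(1 / (p : ℂ)) * (qExpansion 1 G).coeff (p * m) := by
  have hp0 : (p : ℂ) ≠ 0 := Nat.cast_ne_zero.mpr hp.out.ne_zero
  have h0 : ModularForm.trace 𝒮ℒ (fW p G) = 0 :=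
    rank_zero_iff_forall_zero.mp ModularForm.levelOne_weight_two_rank_zero _
  have h := qExpansion_trace_fW_coeff p G m
  rw [h0] at h
  have hz : (qExpansion 1 ((0 : ModularForm 𝒮ℒ 2) : ℍ → ℂ)).coeff m = 0 := by
    rw [FunLike.coe_zero, qExpansion_zero]
    simp
  rw [hz] at h
  have h2 : (p : ℂ) ^ ((2 : ℤ) - 1) = p := by norm_num
  rw [h2] at h
  have h3 : (p : ℂ) * bco G m = -(qExpansion 1 G).coeff (p * m) := by linear_combination -h
  calc bco G m = (p : ℂ)⁻¹ * ((p : ℂ) * bco G m) := by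
        rw [← mul_assoc, inv_mul_cancel₀ hp0, one_mul]
    _ = _ := by rw [h3]; ring

/-- same, for the trace of `G` itself: `a_m(G) = -p b_{pm}(G ∣ S)` -/
theorem coeff_weight_two (G : ModularForm (Gamma0 p) 2) (m : ℕ) :
    (qExpansion 1 G).coeff m = -(p : ℂ) * bco G (p * m) := by
  have h0 : ModularForm.trace 𝒮ℒ G = 0 :=
    rank_zero_iff_forall_zero.mp ModularForm.levelOne_weight_two_rank_zero _
  have h := qExpansion_trace_coeff G m
  rw [h0] at h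
  have hz : (qExpansion 1 ((0 : ModularForm 𝒮ℒ 2) : ℍ → ℂ)).coeff m = 0 := by
    rw [FunLike.coe_zero, qExpansion_zero]
    simp
  rw [hz] at h
  linear_combination -h

end

end Fermat.Agent.S16.Conj81
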