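import Fermat.Agent.S16.Conj81.Cosets

set_option autoImplicit false

/-!
# S16, package (U)-CONJ (helper81): the trace from `Γ₀(p)` to level one, explicitly

`Tr f (z) = f z + ∑_{j<p} (f ∣[k] S)(z + j)`.
-/

namespace Fermat.Agent.S16.Conj81

open scoped MatrixGroups ModularForm
open CongruenceSubgroup ModularGroup UpperHalfPlane Matrix SlashInvariantForm
open Matrix.SpecialLinearGroup (mapGL)

noncomputable section

variable (p : ℕ) [hp : Fact p.Prime] {k : ℤ}

/-- slash by a power of `T` is a translation -/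
lemma slash_T_zpow_apply (k : ℤ) (g : ℍ → ℂ) (n : ℤ) (z : ℍ) :
    (g ∣[k] (T ^ n)) z = g ((n : ℝ) +ᵥ z) := by
  rw [ModularForm.SL_slash_apply, modular_T_zpow_smul]
  have : denom (SpecialLinearGroup.toGL ((SpecialLinearGroup.map (Int.castRingHom ℝ)) (T ^ n)))
      (z : ℂ) = 1 := by
    have := ModularGroup.denom_apply (T ^ n) z
    simp only [coe_T_zpow] at this
    simpa using this
  rw [this, _root_.one_zpow, mul_one]

/-- the element of `𝒮ℒ` attached to `γ : SL(2,ℤ)` -/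
def toSL (γ : SL(2, ℤ)) : 𝒮ℒ := ⟨mapGL ℝ γ, ⟨γ, rfl⟩⟩

lemma toSL_val (γ : SL(2, ℤ)) : (toSL γ : GL (Fin 2) ℝ) = mapGL ℝ γ := rfl

lemma exists_toSL (h : 𝒮ℒ) : ∃ γ : SL(2, ℤ), h = toSL γ := by
  obtain ⟨g, γ, rfl⟩ := h
  exact ⟨γ, rfl⟩

/-- the coset space used by Mathlib's trace -/
abbrev Qp : Type := 𝒮ℒ ⧸ ((Gamma0 p : Subgroup (GL (Fin 2) ℝ)).subgroupOf 𝒮ℒ)

omit hp in
lemma mk_toSL_eq_iff (γ₁ γ₂ : SL(2, ℤ)) :
    (QuotientGroup.mk (toSL γ₁) : Qp p) = QuotientGroup.mk (toSL γ₂) ↔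
      γ₁⁻¹ * γ₂ ∈ Gamma0 p := by
  rw [QuotientGroup.eq, Subgroup.mem_subgroupOf]
  have : (((toSL γ₁)⁻¹ * toSL γ₂ : 𝒮ℒ) : GL (Fin 2) ℝ) = mapGL ℝ (γ₁⁻¹ * γ₂) := by
    simp [toSL_val]
  rw [this]
  constructor
  · rintro ⟨δ, hδ, hδ'⟩
    have := SpecialLinearGroup.mapGL_injective (S := ℝ) (R := ℤ) (n := Fin 2) hδ'
    rwa [← this]
  · intro h
    exact ⟨_, h, rfl⟩

/-- the `p + 1` coset representatives -/
def repMap : Option (Fin p) → Qp p
  | none => QuotientGroup.mk (toSL 1)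
  | some j => QuotientGroup.mk (toSL (S * T ^ ((j : ℕ) : ℤ))⁻¹)

lemma repMap_bijective : Function.Bijective (repMap p) := by
  constructor
  · intro a b hab
    cases a with
    | none =>
      cases b with
      | none => rfl
      | some j =>
        exfalso
        simp only [repMap] at hab
        rw [mk_toSL_eq_iff] at hab
        have := (Gamma0 p).inv_mem hab
        simp only [inv_one, one_mul, inv_inv] at this
        exact S_T_notMem p _ this
    | some i =>
      cases b with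
      | none =>
        exfalso
        simp only [repMap] at hab
        rw [mk_toSL_eq_iff] at hab
        simp only [inv_inv, mul_one] at hab
        exact S_T_notMem p _ hab
      | some j =>
        simp only [repMap] at hab
        rw [mk_toSL_eq_iff, inv_inv] at hab
        have := rep_injective p i.2 j.2 hab
        exact congrArg some (Fin.ext this)
  · intro q
    obtain ⟨h, rfl⟩ := QuotientGroup.mk_surjective q
    obtain ⟨γ, rfl⟩ := exists_toSL h
    rcases exists_rep' p γ with h0 | ⟨j, hj, hmem⟩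
    · refine ⟨none, ?_⟩
      simp only [repMap]
      rw [mk_toSL_eq_iff]
      simpa using h0
    · refine ⟨some ⟨j, hj⟩, ?_⟩
      simp only [repMap]
      rw [mk_toSL_eq_iff, inv_inv]
      exact hmem

/-- the equivalence `Option (Fin p) ≃ SL(2,ℤ)/Γ₀(p)` -/
def repEquiv : Option (Fin p) ≃ Qp p := Equiv.ofBijective (repMap p) (repMap_bijective p)

lemma repEquiv_none : repEquiv p none = QuotientGroup.mk (toSL 1) := rfl

lemma repEquiv_some (j : Fin p) :
    repEquiv p (some j) = QuotientGroup.mk (toSL (S * T ^ ((j : ℕ) : ℤ))⁻¹) := rfl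

/-- sums over the coset space, explicitly -/
theorem sum_Qp {M : Type*} [AddCommMonoid M] [Fintype (Qp p)] (F : Qp p → M) :
    ∑ q : Qp p, F q = F (QuotientGroup.mk (toSL 1)) +
      ∑ j : Fin p, F (QuotientGroup.mk (toSL (S * T ^ ((j : ℕ) : ℤ))⁻¹)) := by
  rw [← Equiv.sum_comp (repEquiv p) F, Fintype.sum_option]
  rfl

/-- products over the coset space, explicitly -/
theorem prod_Qp {M : Type*} [CommMonoid M] [Fintype (Qp p)] (F : Qp p → M) :
    ∏ q : Qp p, F q = F (QuotientGroup.mk (toSL 1)) *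
      ∏ j : Fin p, F (QuotientGroup.mk (toSL (S * T ^ ((j : ℕ) : ℤ))⁻¹)) := by
  rw [← Equiv.prod_comp (repEquiv p) F, Fintype.prod_option]
  rfl

lemma card_Qp : Nat.card (Qp p) = p + 1 := by
  rw [← Nat.card_congr (repEquiv p)]
  simp

variable {p}

omit hp in
/-- the conjugate attached to a coset, in terms of `SL(2,ℤ)`-slashes -/
lemma quotientFunc_toSL_inv {F : Type*} [FunLike F ℍ ℂ]
    [SlashInvariantFormClass F (Gamma0 p : Subgroup (GL (Fin 2) ℝ)) k] (f : F) (γ : SL(2, ℤ)) :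
    quotientFunc f (QuotientGroup.mk (toSL γ⁻¹) : Qp p) = (f : ℍ → ℂ) ∣[k] γ := by
  have : (QuotientGroup.mk (toSL γ⁻¹) : Qp p) = ⟦toSL γ⁻¹⟧ := rfl
  rw [this, quotientFunc_mk, toSL_val, map_inv, inv_inv, ModularForm.SL_slash]
  rfl

omit hp in
lemma quotientFunc_one {F : Type*} [FunLike F ℍ ℂ]
    [SlashInvariantFormClass F (Gamma0 p : Subgroup (GL (Fin 2) ℝ)) k] (f : F) :
    quotientFunc f (QuotientGroup.mk (toSL 1) : Qp p) = (f : ℍ → ℂ) := by
  have h := quotientFunc_toSL_inv (p := p) (k := k) f 1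
  rw [inv_one] at h
  rw [h, SlashAction.slash_one]

omit hp in
lemma quotientFunc_S_T {F : Type*} [FunLike F ℍ ℂ]
    [SlashInvariantFormClass F (Gamma0 p : Subgroup (GL (Fin 2) ℝ)) k] (f : F) (j : ℤ) (z : ℍ) :
    quotientFunc f (QuotientGroup.mk (toSL (S * T ^ j)⁻¹) : Qp p) z =
      ((f : ℍ → ℂ) ∣[k] S) ((j : ℝ) +ᵥ z) := by
  rw [quotientFunc_toSL_inv, SlashAction.slash_mul, slash_T_zpow_apply]

/-- **the trace to level one, explicitly** -/
theorem trace_apply (f : ModularForm (Gamma0 p) k) (z : ℍ) :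
    ModularForm.trace 𝒮ℒ f z =
      f z + ∑ j : Fin p, ((f : ℍ → ℂ) ∣[k] S) (((j : ℕ) : ℝ) +ᵥ z) := by
  rw [ModularForm.coe_trace, Finset.sum_apply]
  let _ := Fintype.ofFinite (Qp p)
  have h := sum_Qp p (fun q : Qp p => quotientFunc f q z)
  convert h using 2
  · rw [quotientFunc_one]
  · refine Finset.sum_congr rfl fun j _ => ?_
    rw [quotientFunc_S_T]
    simp

end

end Fermat.Agent.S16.Conj81
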